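import Mathlib
import Fermat.Prelude.Def_ModularCurve_X0ModL

/-!
# S28 / M4a (helper19): the twist `q ↦ c q` on Laurent series and the series `j(c q^k)`
-/

set_option autoImplicit false

noncomputable section

open HahnSeries ModularCurve

namespace Fermat.Agent.S28.H19

variable {K : Type*} [Field K]

/-- The underlying function of the twist `f(q) ↦ f(c q)`. -/
def twistFun (c : Kˣ) (f : LaurentSeries K) : LaurentSeries K where
  coeff n := (c : K) ^ n * f.coeff n
  isPWO_support' := f.isPWO_support.mono (fun n hn => by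
    simp only [Function.mem_support, ne_eq] at hn
    exact fun h => hn (by rw [h, mul_zero]))

@[simp]
theorem twistFun_coeff (c : Kˣ) (f : LaurentSeries K) (n : ℤ) :
    (twistFun c f).coeff n = (c : K) ^ n * f.coeff n := rfl

theorem twistFun_support (c : Kˣ) (f : LaurentSeries K) : (twistFun c f).support = f.support := by
  ext n
  simp [HahnSeries.mem_support, zpow_ne_zero, Units.ne_zero]

/-- The twist `f(q) ↦ f(c q)` as a `K`-algebra endomorphism of `K((q))`. -/
def twist (c : Kˣ) : LaurentSeries K →ₐ[K] LaurentSeries K where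
  toFun := twistFun c
  map_one' := by
    ext n
    simp only [twistFun_coeff, HahnSeries.coeff_one]
    split_ifs with h
    · subst h; simp
    · simp
  map_mul' f g := by
    ext n
    simp only [twistFun_coeff, HahnSeries.coeff_mul, Finset.mul_sum]
    refine Finset.sum_congr ?_ (fun ij hij => ?_)
    · ext ij
      simp only [Finset.mem_antidiagonal, twistFun_support]
    · have h : ij.1 + ij.2 = n := (Finset.mem_antidiagonal.mp hij).2.2
      rw [← h, zpow_add₀ (Units.ne_zero c)]
      ring
  map_zero' := by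
    ext n
    simp
  map_add' f g := by
    ext n
    simp [mul_add]
  commutes' a := by
    ext n
    rw [algebraMap_laurentSeries_eq_single, twistFun_coeff, HahnSeries.coeff_single]
    split_ifs with h
    · subst h; simp
    · simp

@[simp]
theorem twist_coeff (c : Kˣ) (f : LaurentSeries K) (n : ℤ) :
    (twist c f).coeff n = (c : K) ^ n * f.coeff n := rfl

@[simp]
theorem twist_one (f : LaurentSeries K) : twist (1 : Kˣ) f = f := by
  ext n
  simp

theorem twist_twist (c d : Kˣ) (f : LaurentSeries K) : twist c (twist d f) = twist (c * d) f := by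
  ext n
  simp only [twist_coeff, Units.val_mul, mul_zpow]
  ring

theorem twist_pow (c : Kˣ) (b : ℕ) (f : LaurentSeries K) :
    (twist c)^[b] f = twist (c ^ b) f := by
  induction b with
  | zero => simp
  | succ b ih => rw [Function.iterate_succ_apply', ih, twist_twist, pow_succ']

theorem twist_injective (c : Kˣ) : Function.Injective (twist c : LaurentSeries K → LaurentSeries K) :=
  (twist c).toRingHom.injective

/-- Twist and `q ↦ q^m` commute up to raising the twisting constant to the `m`-th power. -/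
theorem twist_qExpand (c : Kˣ) (m : ℕ) [NeZero m] (f : LaurentSeries K) :
    twist c (qExpand K m f) = qExpand K m (twist (c ^ m) f) := by
  ext n
  by_cases hn : (m : ℤ) ∣ n
  · obtain ⟨k, rfl⟩ := hn
    rw [twist_coeff, qExpand_coeff_mul, qExpand_coeff_mul, twist_coeff, Units.val_pow_eq_pow_val,
      zpow_mul, zpow_natCast]
  · rw [twist_coeff, qExpand_coeff_of_not_dvd _ _ hn, qExpand_coeff_of_not_dvd _ _ hn, mul_zero]

/-- A twist by an `m`-th root of unity fixes the image of `q ↦ q^m`. -/
theorem twist_qExpand_of_pow_eq_one (c : Kˣ) (m : ℕ) [NeZero m] (hc : c ^ m = 1)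
    (f : LaurentSeries K) : twist c (qExpand K m f) = qExpand K m f := by
  rw [twist_qExpand, hc, twist_one]

/-- The series `j(c q^k)`. -/
def jS (c : Kˣ) (k : ℕ) [NeZero k] : LaurentSeries K := qExpand K k (twist c (jqModC K))

theorem jS_one_one : jS (1 : Kˣ) 1 = jqModC K := by
  rw [jS, twist_one, qExpand_one_apply]

theorem jS_one (k : ℕ) [NeZero k] : jS (1 : Kˣ) k = qExpand K k (jqModC K) := by
  rw [jS, twist_one]

theorem qExpand_jS (c : Kˣ) (k m : ℕ) [NeZero k] [NeZero m] :
    haveI : NeZero (m * k) := ⟨Nat.mul_ne_zero (NeZero.ne m) (NeZero.ne k)⟩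
    qExpand K m (jS c k) = jS c (m * k) := by
  rw [jS, qExpand_qExpand, jS]

theorem twist_jS (d c : Kˣ) (k : ℕ) [NeZero k] : twist d (jS c k) = jS (d ^ k * c) k := by
  rw [jS, twist_qExpand, twist_twist, jS]

theorem jS_coeff_neg (c : Kˣ) (k : ℕ) [NeZero k] : (jS c k).coeff (-(k : ℤ)) = ((c⁻¹ : Kˣ) : K) := by
  have h : -(k : ℤ) = (k : ℤ) * (-1) := by ring
  rw [jS, h, qExpand_coeff_mul, twist_coeff, coeff_jqModC_neg_one, mul_one, zpow_neg_one,
    Units.val_inv_eq_inv_val]

theorem jS_coeff_of_not_dvd (c : Kˣ) (k : ℕ) [NeZero k] {n : ℤ} (hn : ¬ (k : ℤ) ∣ n) :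
    (jS c k).coeff n = 0 := by
  rw [jS, qExpand_coeff_of_not_dvd _ _ hn]

theorem jS_coeff_of_lt (c : Kˣ) (k : ℕ) [NeZero k] {n : ℤ} (hn : n < -(k : ℤ)) :
    (jS c k).coeff n = 0 := by
  by_cases hd : (k : ℤ) ∣ n
  · obtain ⟨m, rfl⟩ := hd
    have hk : (0 : ℤ) < k := by exact_mod_cast Nat.pos_of_ne_zero (NeZero.ne k)
    have hm : m < -1 := by
      by_contra hcon
      have : -1 ≤ m := not_lt.mp hcon
      nlinarith
    rw [jS, qExpand_coeff_mul, twist_coeff, coeff_jqModC_of_lt K hm, mul_zero]
  · exact jS_coeff_of_not_dvd c k hd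

/-- `j(c q^k)` determines `k` and `c`. -/
theorem jS_injective {c c' : Kˣ} {k k' : ℕ} [NeZero k] [NeZero k'] (h : jS c k = jS c' k') :
    k = k' ∧ c = c' := by
  have hk : k = k' := by
    by_contra hne
    rcases Nat.lt_or_gt_of_ne hne with hlt | hlt
    · have h1 := jS_coeff_neg c' k'
      rw [← h, jS_coeff_of_lt c k (by exact_mod_cast neg_lt_neg (Nat.cast_lt (α := ℤ).mpr hlt))] at h1
      exact Units.ne_zero _ h1.symm
    · have h1 := jS_coeff_neg c k
      rw [h, jS_coeff_of_lt c' k' (by exact_mod_cast neg_lt_neg (Nat.cast_lt (α := ℤ).mpr hlt))] at h1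
      exact Units.ne_zero _ h1.symm
  subst hk
  refine ⟨rfl, ?_⟩
  have h1 := jS_coeff_neg c k
  rw [h, jS_coeff_neg] at h1
  exact inv_injective (Units.ext h1.symm)

end Fermat.Agent.S28.H19
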