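import Mathlib
import Fermat.Prelude.Def_ModularCurve_X0ModL
import Fermat.Agent.S28.H19.Twist

/-!
# S28 / M4a (helper19): the modular equation interface and the degree lemma

`IsModEq p ζ Φ` is `FACT_p`: `Φ(X, j(q^p)) = (X - j(q^{p²})) ∏_{b<p} (X - j(ζ^b q))`.
The degree lemma: over an intermediate field `E` of `K((q))/K` fixed by `q ↦ ξ q` (`ξ^M = ζ`) and
containing `j(q^{Mp})`, the element `j(q^M)` has degree `≥ p`, and degree `p + 1` (with
`j(q^{Mp²})` as a conjugate) as soon as `j(q^{Mp²}) ∉ E`.
-/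

set_option autoImplicit false

noncomputable section

open ModularCurve Polynomial

namespace Fermat.Agent.S28.H19

variable {K : Type*} [Field K]

section evY

variable {A B : Type*} [CommRing A] [Algebra K A] [CommRing B] [Algebra K B]

/-- For `Φ ∈ K[Y][X]` and `x` in a `K`-algebra `A`, the polynomial `Φ(X, x) ∈ A[X]`. -/
def evY (Φ : Polynomial (Polynomial K)) (x : A) : Polynomial A :=
  Φ.map (Polynomial.aeval x : Polynomial K →ₐ[K] A).toRingHom

theorem evY_map (Φ : Polynomial (Polynomial K)) (f : A →ₐ[K] B) (x : A) :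
    (evY Φ x).map f.toRingHom = evY Φ (f x) := by
  rw [evY, evY, Polynomial.map_map]
  congr 1
  have h : (Polynomial.aeval (f x) : Polynomial K →ₐ[K] B) = f.comp (Polynomial.aeval x) :=
    Polynomial.aeval_algHom f x
  rw [h]
  rfl

theorem evY_monic {Φ : Polynomial (Polynomial K)} (hΦ : Φ.Monic) (x : A) : (evY Φ x).Monic :=
  hΦ.map _

/-- `Φ(y, x) = 0` is preserved by `K`-algebra homomorphisms. -/
theorem evY_eval_map (Φ : Polynomial (Polynomial K)) (f : A →ₐ[K] B) (x y : A) :
    f ((evY Φ x).eval y) = (evY Φ (f x)).eval (f y) := by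
  rw [← evY_map, Polynomial.eval_map]
  exact Polynomial.hom_eval₂ _ _ _ _ |>.trans (by simp [Polynomial.eval₂_eq_eval_map])

end evY

/-- `FACT_p`, in twist form. -/
def IsModEq (p : ℕ) [NeZero p] (ζ : Kˣ) (Φ : Polynomial (Polynomial K)) : Prop :=
  Φ.Monic ∧ evY Φ (qExpand K p (jqModC K)) =
    (X - C (qExpand K (p * p) (jqModC K))) *
      ∏ b ∈ Finset.range p, (X - C (twist (ζ ^ b) (jqModC K)))


section level

variable {p : ℕ} [NeZero p] {ζ : Kˣ} {Φ : Polynomial (Polynomial K)}

/-- `FACT_p` transported by `q ↦ q^M`, with the conjugates written as twists of `j(q^M)`. -/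
theorem IsModEq.level (hΦ : IsModEq p ζ Φ) (M : ℕ) [NeZero M] {ξ : Kˣ} (hξ : ξ ^ M = ζ) :
    evY Φ (qExpand K (M * p) (jqModC K)) =
      (X - C (qExpand K (M * (p * p)) (jqModC K))) *
        ∏ b ∈ Finset.range p, (X - C (twist (ξ ^ b) (qExpand K M (jqModC K)))) := by
  have h := congrArg (Polynomial.map (qExpandAlgHomC K M).toRingHom) hΦ.2
  rw [evY_map, qExpandAlgHomC_apply, qExpand_qExpand] at h
  rw [h, Polynomial.map_mul, Polynomial.map_sub, Polynomial.map_X, Polynomial.map_C,
    Polynomial.map_prod]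
  congr 1
  · congr 2
    exact qExpand_qExpand _ _ _
  · refine Finset.prod_congr rfl (fun b _ => ?_)
    rw [Polynomial.map_sub, Polynomial.map_X, Polynomial.map_C]
    congr 2
    show qExpand K M (twist (ζ ^ b) (jqModC K)) = _
    rw [twist_qExpand, ← pow_mul, mul_comm b M, pow_mul, hξ]

end level

section degree

variable {p M : ℕ} [NeZero p] [NeZero M] {ζ ξ : Kˣ} {Φ : Polynomial (Polynomial K)}

omit [NeZero p] in
/-- The conjugates `j(ζ^b q^M)`, `b < p`, are pairwise distinct. -/
theorem twist_pow_injOn (hζ : IsPrimitiveRoot ζ p) (hξ : ξ ^ M = ζ) :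
    Set.InjOn (fun b : ℕ => twist (ξ ^ b) (qExpand K M (jqModC K))) (Finset.range p : Set ℕ) := by
  intro b hb b' hb' h
  simp only [← jS_one, twist_jS, mul_one] at h
  have h2 := (jS_injective h).2
  rw [← pow_mul, ← pow_mul, mul_comm b M, mul_comm b' M, pow_mul, pow_mul, hξ] at h2
  exact hζ.pow_inj (Finset.mem_range.mp hb) (Finset.mem_range.mp hb') h2

theorem twist_pow_fix (E : IntermediateField K (LaurentSeries K))
    (hfix : ∀ x ∈ E, twist ξ x = x) (b : ℕ) : ∀ x ∈ E, twist (ξ ^ b) x = x := by
  intro x hx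
  rw [← twist_pow]
  exact Function.iterate_fixed (hfix x hx) b

/-- **Degree lemma.** -/
theorem minpoly_facts (hζ : IsPrimitiveRoot ζ p) (hξ : ξ ^ M = ζ) (hΦ : IsModEq p ζ Φ)
    (E : IntermediateField K (LaurentSeries K))
    (hfix : ∀ x ∈ E, twist ξ x = x) (hmem : qExpand K (M * p) (jqModC K) ∈ E) :
    IsIntegral E (qExpand K M (jqModC K)) ∧
    p ≤ (minpoly E (qExpand K M (jqModC K))).natDegree ∧
    (qExpand K (M * (p * p)) (jqModC K) ∉ E →
      (minpoly E (qExpand K M (jqModC K))).natDegree = p + 1 ∧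
      Polynomial.aeval (qExpand K (M * (p * p)) (jqModC K))
        (minpoly E (qExpand K M (jqModC K))) = 0) := by
  classical
  set y := qExpand K M (jqModC K) with hy
  set z := qExpand K (M * (p * p)) (jqModC K) with hz
  have hp0 : 0 < p := Nat.pos_of_ne_zero (NeZero.ne p)
  have hfac := hΦ.level M hξ
  rw [← hy, ← hz] at hfac
  -- the polynomial over `E`
  set ΨE : Polynomial E := evY Φ (⟨qExpand K (M * p) (jqModC K), hmem⟩ : E) with hΨE
  have hΨmap : ΨE.map (algebraMap E (LaurentSeries K)) = evY Φ (qExpand K (M * p) (jqModC K)) :=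
    evY_map Φ E.val _
  have hΨmonic : ΨE.Monic := evY_monic hΦ.1 _
  have hprodmonic : (∏ b ∈ Finset.range p, (X - C (twist (ξ ^ b) y))).Monic :=
    Polynomial.monic_prod_of_monic _ _ (fun b _ => Polynomial.monic_X_sub_C _)
  have hproddeg : (∏ b ∈ Finset.range p, (X - C (twist (ξ ^ b) y))).natDegree = p := by
    rw [Polynomial.natDegree_prod_of_monic _ _ (fun b _ => Polynomial.monic_X_sub_C _)]
    simp
  have hΨdeg : ΨE.natDegree = p + 1 := by
    rw [← Polynomial.natDegree_map (algebraMap E (LaurentSeries K)), hΨmap, hfac,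
      (Polynomial.monic_X_sub_C z).natDegree_mul hprodmonic, Polynomial.natDegree_X_sub_C,
      hproddeg, add_comm]
  have haeval : ∀ w : LaurentSeries K, Polynomial.aeval w ΨE
      = (w - z) * ∏ b ∈ Finset.range p, (w - twist (ξ ^ b) y) := by
    intro w
    rw [Polynomial.aeval_def, Polynomial.eval₂_eq_eval_map, hΨmap, hfac, Polynomial.eval_mul,
      Polynomial.eval_prod]
    simp
  have hroot0 : Polynomial.aeval y ΨE = 0 := by
    rw [haeval]
    refine mul_eq_zero_of_right _ (Finset.prod_eq_zero (Finset.mem_range.mpr hp0) ?_)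
    simp
  have hint : IsIntegral E y := ⟨ΨE, hΨmonic, hroot0⟩
  set m := minpoly E y with hm
  have hmmonic : m.Monic := minpoly.monic hint
  have hdvd : m ∣ ΨE := minpoly.dvd E y hroot0
  -- conjugates
  have hconj : ∀ b : ℕ, Polynomial.aeval (twist (ξ ^ b) y) m = 0 := by
    intro b
    let σ : LaurentSeries K →ₐ[E] LaurentSeries K :=
      { (twist (ξ ^ b)).toRingHom with
        commutes' := fun e => twist_pow_fix E hfix b e.1 e.2 }
    have h1 : Polynomial.aeval (σ y) m = σ (Polynomial.aeval y m) :=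
      Polynomial.aeval_algHom_apply σ y m
    rw [minpoly.aeval, map_zero] at h1
    exact h1
  have hmmap_ne : m.map (algebraMap E (LaurentSeries K)) ≠ 0 :=
    (hmmonic.map _).ne_zero
  set R : Finset (LaurentSeries K) :=
    (Finset.range p).image (fun b : ℕ => twist (ξ ^ b) y) with hR
  have hRcard : R.card = p := by
    rw [hR, Finset.card_image_of_injOn (twist_pow_injOn hζ hξ), Finset.card_range]
  have hRsub : R.val ⊆ (m.map (algebraMap E (LaurentSeries K))).roots := by
    intro w hw
    have hw' : w ∈ (Finset.range p).image (fun b : ℕ => twist (ξ ^ b) y) := Finset.mem_val.mp hw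
    obtain ⟨b, -, rfl⟩ := Finset.mem_image.mp hw'
    rw [Polynomial.mem_roots hmmap_ne, Polynomial.IsRoot, Polynomial.eval_map,
      ← Polynomial.aeval_def]
    exact hconj b
  have hle : p ≤ m.natDegree := by
    have h1 := Polynomial.card_le_degree_of_subset_roots hRsub
    rwa [hRcard, Polynomial.natDegree_map] at h1
  have hle' : m.natDegree ≤ p + 1 := by
    rw [← hΨdeg]
    exact Polynomial.natDegree_le_of_dvd hdvd hΨmonic.ne_zero
  refine ⟨hint, hle, fun hzE => ?_⟩
  have hne : m.natDegree ≠ p := by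
    intro hdeg
    obtain ⟨Q, hQ⟩ := hdvd
    have hQmonic : Q.Monic := hmmonic.of_mul_monic_left (hQ ▸ hΨmonic)
    -- `m.map = ∏ (X - y_b)`
    have hroots : R.val = (m.map (algebraMap E (LaurentSeries K))).roots := by
      refine Multiset.eq_of_le_of_card_le ((Multiset.le_iff_subset R.nodup).mpr hRsub) ?_
      have h1 := Polynomial.card_roots' (m.map (algebraMap E (LaurentSeries K)))
      rw [Polynomial.natDegree_map, hdeg] at h1
      rw [Finset.card_val, hRcard]
      exact h1
    have hmprod : m.map (algebraMap E (LaurentSeries K))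
        = ∏ b ∈ Finset.range p, (X - C (twist (ξ ^ b) y)) := by
      have h1 := Polynomial.prod_multiset_X_sub_C_of_monic_of_roots_card_eq
        (hmmonic.map (algebraMap E (LaurentSeries K))) (by
          rw [← hroots, Finset.card_val, hRcard, Polynomial.natDegree_map, hdeg])
      rw [← h1, ← hroots, hR, Finset.image_val_of_injOn (twist_pow_injOn hζ hξ),
        Multiset.map_map]
      rfl
    have h2 : (X - C z) * m.map (algebraMap E (LaurentSeries K))
        = Q.map (algebraMap E (LaurentSeries K)) * m.map (algebraMap E (LaurentSeries K)) := by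
      rw [hmprod, ← hfac, ← hΨmap, hQ, Polynomial.map_mul, hmprod, mul_comm]
    have h3 : X - C z = Q.map (algebraMap E (LaurentSeries K)) := mul_right_cancel₀ hmmap_ne h2
    have h4 := congrArg (fun P : Polynomial (LaurentSeries K) => P.coeff 0) h3
    simp only [Polynomial.coeff_sub, Polynomial.coeff_X_zero, Polynomial.coeff_C_zero, zero_sub,
      Polynomial.coeff_map] at h4
    apply hzE
    have h5 : z = algebraMap E (LaurentSeries K) (-(Q.coeff 0)) := by
      rw [map_neg, ← h4, neg_neg]
    rw [h5]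
    exact (-(Q.coeff 0)).2
  have hdeg : m.natDegree = p + 1 := by omega
  refine ⟨hdeg, ?_⟩
  have hmΨ : ΨE = m :=
    Polynomial.eq_of_monic_of_dvd_of_natDegree_le hmmonic hΨmonic hdvd (by rw [hΨdeg, hdeg])
  rw [← hmΨ, haeval, sub_self, zero_mul]

end degree

end Fermat.Agent.S28.H19
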