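import Mathlib
import Fermat.Prelude.Def_ModularCurve_X0ModL
import Fermat.Agent.S28.H19.Degree

/-!
# S28 / M4a (helper19): `(B_M)` — `j(q^p) ∉ K(j(q^d) : d ∣ M)` for `p ∤ M`
-/

set_option autoImplicit false

noncomputable section

open ModularCurve Polynomial

namespace Fermat.Agent.S28.H19

variable {K : Type*} [Field K]

/-- `FACT_p` holds over `K` for some primitive `p`-th root of unity. -/
def HasModEq (K : Type*) [Field K] (p : ℕ) : Prop :=
  ∃ (_ : NeZero p) (ζ : Kˣ) (Φ : Polynomial (Polynomial K)), IsPrimitiveRoot ζ p ∧ IsModEq p ζ Φ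

section consequences

variable {p : ℕ} [NeZero p] {ζ : Kˣ} {Φ : Polynomial (Polynomial K)}

/-- The symmetric relation `Φ_p(j(q^p), j(q)) = 0`. -/
theorem IsModEq.symm_root (hΦ : IsModEq p ζ Φ) :
    (evY Φ (jqModC K)).eval (qExpand K p (jqModC K)) = 0 := by
  have h1 : (evY Φ (qExpand K p (jqModC K))).eval (qExpand K (p * p) (jqModC K)) = 0 := by
    rw [hΦ.2, Polynomial.eval_mul]
    simp
  have h2 := evY_eval_map Φ (qExpandAlgHomC K p) (jqModC K) (qExpand K p (jqModC K))
  simp only [qExpandAlgHomC_apply, qExpand_qExpand] at h2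
  rw [h1] at h2
  exact qExpand_injective (R := K) p (by rw [h2, map_zero])

/-- `Φ_p(j(q^{mp}), j(q^m)) = 0`. -/
theorem IsModEq.root_level (hΦ : IsModEq p ζ Φ) (m : ℕ) [NeZero m] :
    (evY Φ (qExpand K m (jqModC K))).eval (qExpand K (m * p) (jqModC K)) = 0 := by
  have h2 := evY_eval_map Φ (qExpandAlgHomC K m) (jqModC K) (qExpand K p (jqModC K))
  simp only [qExpandAlgHomC_apply, qExpand_qExpand] at h2
  rw [← h2, hΦ.symm_root, map_zero]

/-- `FACT_p` after the substitution `q ↦ c₁ q^{k₁}`. -/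
theorem IsModEq.subst (hΦ : IsModEq p ζ Φ) (c₁ : Kˣ) (k₁ : ℕ) [NeZero k₁] :
    evY Φ (jS (c₁ ^ p) (k₁ * p)) =
      (X - C (jS (c₁ ^ (p * p)) (k₁ * (p * p)))) *
        ∏ b ∈ Finset.range p, (X - C (jS (c₁ * ζ ^ b) k₁)) := by
  have h := congrArg (Polynomial.map ((qExpandAlgHomC K k₁).comp (twist c₁)).toRingHom) hΦ.2
  rw [evY_map] at h
  have e1 : ((qExpandAlgHomC K k₁).comp (twist c₁)) (qExpand K p (jqModC K))
      = jS (c₁ ^ p) (k₁ * p) := by
    show qExpand K k₁ (twist c₁ (qExpand K p (jqModC K))) = _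
    rw [twist_qExpand, qExpand_qExpand, jS]
  have e2 : ((qExpandAlgHomC K k₁).comp (twist c₁)) (qExpand K (p * p) (jqModC K))
      = jS (c₁ ^ (p * p)) (k₁ * (p * p)) := by
    show qExpand K k₁ (twist c₁ (qExpand K (p * p) (jqModC K))) = _
    rw [twist_qExpand, qExpand_qExpand, jS]
  rw [e1] at h
  rw [h, Polynomial.map_mul, Polynomial.map_sub, Polynomial.map_X, Polynomial.map_C,
    Polynomial.map_prod]
  congr 1
  · congr 2
  · refine Finset.prod_congr rfl (fun b _ => ?_)
    rw [Polynomial.map_sub, Polynomial.map_X, Polynomial.map_C]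
    congr 2
    show qExpand K k₁ (twist c₁ (twist (ζ ^ b) (jqModC K))) = _
    rw [twist_twist, jS]

end consequences

section BM

variable [IsAlgClosed K]

/-- The embedding argument: if `j(q^M)` has `j(q^{Mp²})` as a conjugate over a field `E'`
containing `j(q^{Mp})`, then `j(q^p) ∉ K(j(q^d) : d ∣ M)`. -/
theorem not_mem_full_aux {p M : ℕ} [NeZero p] [NeZero M] (hpM : ¬ p ∣ M)
    (hM : ∀ p' : ℕ, p'.Prime → p' ∣ M → HasModEq K p')
    (E' : IntermediateField K (LaurentSeries K))
    (hmem : qExpand K (M * p) (jqModC K) ∈ E')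
    (hint : IsIntegral E' (qExpand K M (jqModC K)))
    (hrootz : Polynomial.aeval (qExpand K (M * (p * p)) (jqModC K))
      (minpoly E' (qExpand K M (jqModC K))) = 0) :
    qExpand K p (jqModC K) ∉ modularFunctionFieldFullC K M := by
  classical
  intro hcon
  -- the algebraic closure `B` of `E'` in `K((q))` and the embedding `θ`
  have hBint : Algebra.IsIntegral E' (algebraicClosure E' (LaurentSeries K)) :=
    ⟨fun s => (Algebra.IsAlgebraic.isAlgebraic s).isIntegral⟩
  have hyB : qExpand K M (jqModC K) ∈ algebraicClosure E' (LaurentSeries K) :=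
    mem_algebraicClosure_iff.mpr hint.isAlgebraic
  obtain ⟨θ, hθy⟩ : ∃ θ : algebraicClosure E' (LaurentSeries K) →ₐ[E']
      AlgebraicClosure (LaurentSeries K),
      θ ⟨qExpand K M (jqModC K), hyB⟩ = algebraMap (LaurentSeries K)
        (AlgebraicClosure (LaurentSeries K)) (qExpand K (M * (p * p)) (jqModC K)) := by
    refine IntermediateField.exists_algHom_of_splits_of_aeval
      (fun s => ⟨hBint.isIntegral s, IsAlgClosed.splits _⟩) ?_
    have h1 : minpoly E' (⟨qExpand K M (jqModC K), hyB⟩ :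
        algebraicClosure E' (LaurentSeries K)) = minpoly E' (qExpand K M (jqModC K)) :=
      (minpoly.algebraMap_eq (algebraMap (algebraicClosure E' (LaurentSeries K))
        (LaurentSeries K)).injective _).symm
    rw [h1, Polynomial.aeval_algebraMap_apply, hrootz, map_zero]
  -- `θ` is the inclusion on `E'`
  have hθE : ∀ (e : LaurentSeries K) (he : e ∈ E')
      (heB : e ∈ algebraicClosure E' (LaurentSeries K)),
      θ ⟨e, heB⟩ = algebraMap (LaurentSeries K) (AlgebraicClosure (LaurentSeries K)) e := by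
    intro e he heB
    have h1 : (⟨e, heB⟩ : algebraicClosure E' (LaurentSeries K))
        = algebraMap E' (algebraicClosure E' (LaurentSeries K)) ⟨e, he⟩ := rfl
    rw [h1, θ.commutes]
    rfl
  -- `B` is closed under taking roots of monic `Ψ(X, a)`, `a ∈ B`
  have hBclosed : ∀ (a : LaurentSeries K) (ha : a ∈ algebraicClosure E' (LaurentSeries K))
      (Ψ : Polynomial (Polynomial K)), Ψ.Monic → ∀ w : LaurentSeries K,
      (evY Ψ a).eval w = 0 → w ∈ algebraicClosure E' (LaurentSeries K) := by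
    intro a ha Ψ hΨ w hw
    refine mem_algebraicClosure_iff.mpr (IsIntegral.isAlgebraic ?_)
    have h1 : IsIntegral (algebraicClosure E' (LaurentSeries K)) w := by
      refine ⟨evY Ψ (⟨a, ha⟩ : algebraicClosure E' (LaurentSeries K)), evY_monic hΨ _, ?_⟩
      have h2 := evY_map Ψ ((algebraicClosure E' (LaurentSeries K)).val.restrictScalars K) ⟨a, ha⟩
      rw [Polynomial.eval₂_eq_eval_map]
      exact (congrArg (Polynomial.eval w) h2).trans hw
    exact isIntegral_trans w h1
  -- transport of roots by `θ`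
  have hθroot : ∀ (a : LaurentSeries K) (ha : a ∈ algebraicClosure E' (LaurentSeries K))
      (w : LaurentSeries K) (hw : w ∈ algebraicClosure E' (LaurentSeries K))
      (Ψ : Polynomial (Polynomial K)), (evY Ψ a).eval w = 0 →
      (evY Ψ (θ ⟨a, ha⟩)).eval (θ ⟨w, hw⟩) = 0 := by
    intro a ha w hw Ψ h
    have h1 : (evY Ψ (⟨a, ha⟩ : algebraicClosure E' (LaurentSeries K))).eval ⟨w, hw⟩ = 0 := by
      apply Subtype.ext
      have h2 := evY_eval_map Ψ
        ((algebraicClosure E' (LaurentSeries K)).val.restrictScalars K) ⟨a, ha⟩ ⟨w, hw⟩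
      exact h2.trans h
    have h3 := evY_eval_map Ψ (θ.restrictScalars K) ⟨a, ha⟩ ⟨w, hw⟩
    rw [h1, map_zero] at h3
    exact h3.symm
  -- the main claim
  have hclaim : ∀ d : ℕ, ∀ (_ : NeZero d) (e : ℕ), d * e = M →
      ∃ (c : Kˣ) (k : ℕ) (_ : NeZero k)
        (hx : qExpand K (M * d) (jqModC K) ∈ algebraicClosure E' (LaurentSeries K)),
        p * p * e ∣ k ∧ θ ⟨qExpand K (M * d) (jqModC K), hx⟩
          = algebraMap (LaurentSeries K) (AlgebraicClosure (LaurentSeries K)) (jS c k) := by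
    intro d
    induction d using Nat.strong_induction_on with
    | _ d ih =>
      intro hd e hde
      by_cases hd1 : d = 1
      · subst hd1
        rw [one_mul] at hde
        have e1 : qExpand K (M * 1) (jqModC K) = qExpand K M (jqModC K) :=
          qExpand_congr (mul_one M) _
        have hx : qExpand K (M * 1) (jqModC K) ∈ algebraicClosure E' (LaurentSeries K) := by
          rw [e1]; exact hyB
        refine ⟨1, M * (p * p), inferInstance, hx, ⟨1, by rw [hde]; ring⟩, ?_⟩
        have e2 : (⟨qExpand K (M * 1) (jqModC K), hx⟩ : algebraicClosure E' (LaurentSeries K))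
            = ⟨qExpand K M (jqModC K), hyB⟩ := Subtype.ext e1
        rw [e2, hθy, jS_one]
      · have hd0 : d ≠ 0 := NeZero.ne d
        have hp' : d.minFac.Prime := Nat.minFac_prime hd1
        obtain ⟨d', hd'⟩ : ∃ d', d = d' * d.minFac :=
          ⟨d / d.minFac, (Nat.div_mul_cancel (Nat.minFac_dvd d)).symm⟩
        generalize d.minFac = p' at hd' hp'
        subst hd'
        have hd'0 : d' ≠ 0 := by
          rintro rfl
          exact hd0 (zero_mul _)
        have : NeZero d' := ⟨hd'0⟩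
        have : NeZero p' := ⟨hp'.ne_zero⟩
        have hlt : d' < d' * p' := by
          have := hp'.two_le
          have := Nat.pos_of_ne_zero hd'0
          nlinarith
        obtain ⟨c, k, hk, hx', hdiv, hθ'⟩ := ih d' hlt ⟨hd'0⟩ (e * p') (by rw [← hde]; ring)
        obtain ⟨hne', ζ', Φ', -, hΦ'⟩ := hM p' hp' ⟨d' * e, by rw [← hde]; ring⟩
        have hroot : (evY Φ' (qExpand K (M * d') (jqModC K))).eval
            (qExpand K (M * d' * p') (jqModC K)) = 0 := hΦ'.root_level (M * d')
        have e2 : qExpand K (M * d' * p') (jqModC K) = qExpand K (M * (d' * p')) (jqModC K) :=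
          qExpand_congr (mul_assoc _ _ _) _
        rw [e2] at hroot
        have hxB := hBclosed _ hx' Φ' hΦ'.1 _ hroot
        have h0 := hθroot _ hx' _ hxB Φ' hroot
        rw [hθ'] at h0
        have hp'k : p' ∣ k := Dvd.dvd.trans ⟨p * p * e, by ring⟩ hdiv
        obtain ⟨k₁, rfl⟩ : ∃ k₁, k = k₁ * p' := ⟨k / p', (Nat.div_mul_cancel hp'k).symm⟩
        have hk₁0 : k₁ ≠ 0 := by
          rintro rfl
          exact (NeZero.ne (0 * p')) (zero_mul _)
        have : NeZero k₁ := ⟨hk₁0⟩
        obtain ⟨c₁', hc₁'⟩ := IsAlgClosed.exists_pow_nat_eq (c : K) hp'.pos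
        have hc₁ne : c₁' ≠ 0 := by
          rintro rfl
          rw [zero_pow hp'.ne_zero] at hc₁'
          exact Units.ne_zero c hc₁'.symm
        obtain ⟨c₁, rfl⟩ : ∃ c₁ : Kˣ, c = c₁ ^ p' :=
          ⟨Units.mk0 c₁' hc₁ne, Units.ext (by simpa using hc₁'.symm)⟩
        have hfac := hΦ'.subst c₁ k₁
        have h1 := evY_map Φ' (IsScalarTower.toAlgHom K (LaurentSeries K)
          (AlgebraicClosure (LaurentSeries K))) (jS (c₁ ^ p') (k₁ * p'))
        rw [IsScalarTower.coe_toAlgHom'] at h1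
        rw [← h1, hfac, Polynomial.eval_map, Polynomial.eval₂_mul,
          Polynomial.eval₂_finsetProd] at h0
        simp only [Polynomial.eval₂_sub, Polynomial.eval₂_X, Polynomial.eval₂_C] at h0
        rcases mul_eq_zero.mp h0 with h | h
        · refine ⟨c₁ ^ (p' * p'), k₁ * (p' * p'), inferInstance, hxB, ?_, sub_eq_zero.mp h⟩
          exact Dvd.dvd.trans ⟨p', by ring⟩ (Dvd.dvd.trans hdiv ⟨p', by ring⟩)
        · obtain ⟨b, -, hb⟩ := Finset.prod_eq_zero_iff.mp h
          refine ⟨c₁ * ζ' ^ b, k₁, inferInstance, hxB, ?_, sub_eq_zero.mp hb⟩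
          have h2 : p * p * e * p' ∣ k₁ * p' := by rwa [mul_assoc]
          exact Nat.dvd_of_mul_dvd_mul_right hp'.pos h2
  -- `E' ⊆ B`
  have hEB : ∀ e ∈ E', e ∈ algebraicClosure E' (LaurentSeries K) := fun e he =>
    (algebraicClosure E' (LaurentSeries K)).algebraMap_mem ⟨e, he⟩
  -- every element of `S_M(κ_M)` is in `B`, and `θ` maps it into the image of `q ↦ q^{p²}`
  have hkey : ∀ x ∈ IntermediateField.adjoin K ((qExpandAlgHomC K M) '' divisorExpansionsC K M),
      ∃ hx : x ∈ algebraicClosure E' (LaurentSeries K),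
        θ ⟨x, hx⟩ ∈ ((algebraMap (LaurentSeries K) (AlgebraicClosure (LaurentSeries K))).comp
          (qExpand K (p * p))).fieldRange := by
    intro x hx
    induction hx using IntermediateField.adjoin_induction with
    | mem x hx =>
      obtain ⟨y, ⟨d, hne, hd, rfl⟩, rfl⟩ := hx
      obtain ⟨e, he⟩ := hd
      obtain ⟨c, k, hk, hxB, hdiv, hθ⟩ := hclaim d hne e he.symm
      have e1 : qExpandAlgHomC K M (qExpand K d (jqModC K)) = qExpand K (M * d) (jqModC K) := by
        rw [qExpandAlgHomC_apply, qExpand_qExpand]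
      rw [e1]
      refine ⟨hxB, ?_⟩
      rw [hθ]
      obtain ⟨k₂, rfl⟩ : ∃ k₂, k = p * p * k₂ := Dvd.dvd.trans (Dvd.intro e rfl) hdiv
      have hk₂ : NeZero k₂ := ⟨by
        rintro rfl
        exact (NeZero.ne (p * p * 0)) (mul_zero _)⟩
      exact ⟨jS c k₂, congrArg (algebraMap (LaurentSeries K) (AlgebraicClosure (LaurentSeries K)))
        (qExpand_jS c k₂ (p * p))⟩
    | algebraMap a =>
      have ha : algebraMap K (LaurentSeries K) a ∈ E' := E'.algebraMap_mem a
      refine ⟨hEB _ ha, ?_⟩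
      rw [hθE _ ha]
      exact ⟨algebraMap K (LaurentSeries K) a,
        congrArg (algebraMap (LaurentSeries K) (AlgebraicClosure (LaurentSeries K)))
          ((qExpandAlgHomC K (p * p)).commutes a)⟩
    | add a b _ _ ha hb =>
      obtain ⟨ha1, ha2⟩ := ha
      obtain ⟨hb1, hb2⟩ := hb
      refine ⟨add_mem ha1 hb1, ?_⟩
      have h1 : (⟨a + b, add_mem ha1 hb1⟩ : algebraicClosure E' (LaurentSeries K))
          = ⟨a, ha1⟩ + ⟨b, hb1⟩ := rfl
      rw [h1, map_add]
      exact add_mem ha2 hb2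
    | inv a _ ha =>
      obtain ⟨ha1, ha2⟩ := ha
      refine ⟨inv_mem ha1, ?_⟩
      have h1 : (⟨a⁻¹, inv_mem ha1⟩ : algebraicClosure E' (LaurentSeries K))
          = (⟨a, ha1⟩)⁻¹ := rfl
      rw [h1, map_inv₀]
      exact inv_mem ha2
    | mul a b _ _ ha hb =>
      obtain ⟨ha1, ha2⟩ := ha
      obtain ⟨hb1, hb2⟩ := hb
      refine ⟨mul_mem ha1 hb1, ?_⟩
      have h1 : (⟨a * b, mul_mem ha1 hb1⟩ : algebraicClosure E' (LaurentSeries K))
          = ⟨a, ha1⟩ * ⟨b, hb1⟩ := rfl
      rw [h1, map_mul]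
      exact mul_mem ha2 hb2
  have hx₀ : qExpand K (M * p) (jqModC K) ∈
      IntermediateField.adjoin K ((qExpandAlgHomC K M) '' divisorExpansionsC K M) := by
    rw [← IntermediateField.adjoin_map]
    refine ⟨qExpand K p (jqModC K), hcon, ?_⟩
    show qExpand K M (qExpand K p (jqModC K)) = _
    rw [qExpand_qExpand]
  obtain ⟨hx₀B, w, hw⟩ := hkey _ hx₀
  rw [hθE _ hmem hx₀B] at hw
  have hw' : qExpand K (p * p) w = qExpand K (M * p) (jqModC K) :=
    (algebraMap (LaurentSeries K) (AlgebraicClosure (LaurentSeries K))).injective hw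
  have h1 : (qExpand K (p * p) w).coeff (-((M * p : ℕ) : ℤ))
      = (qExpand K (M * p) (jqModC K)).coeff (-((M * p : ℕ) : ℤ)) := by rw [hw']
  rw [qExpand_coeff_of_not_dvd, ← jS_one, jS_coeff_neg] at h1
  · simp at h1
  · rw [dvd_neg, Int.natCast_dvd_natCast]
    intro h
    exact hpM (Nat.dvd_of_mul_dvd_mul_right (Nat.pos_of_ne_zero (NeZero.ne p)) h)


/-- **(B_M).** If `p ∤ M`, `FACT` holds for `p` and for the primes dividing `M`, and
`j(q^p) ∉ K(j)`, then `j(q^p) ∉ K(j(q^d) : d ∣ M)`. -/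
theorem not_mem_full {p M : ℕ} [NeZero p] [NeZero M] (hpM : ¬ p ∣ M)
    {ζ : Kˣ} (hζ : IsPrimitiveRoot ζ p) {Φ : Polynomial (Polynomial K)} (hΦ : IsModEq p ζ Φ)
    (hM : ∀ p' : ℕ, p'.Prime → p' ∣ M → HasModEq K p')
    (hB : qExpand K p (jqModC K) ∉ IntermediateField.adjoin K {jqModC K}) :
    qExpand K p (jqModC K) ∉ modularFunctionFieldFullC K M := by
  classical
  intro hcon
  obtain ⟨ξ₀, hξ₀⟩ := IsAlgClosed.exists_pow_nat_eq (ζ : K) (Nat.pos_of_ne_zero (NeZero.ne M))
  have hξ₀ne : ξ₀ ≠ 0 := by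
    rintro rfl
    rw [zero_pow (NeZero.ne M)] at hξ₀
    exact Units.ne_zero ζ hξ₀.symm
  have hξ : (Units.mk0 ξ₀ hξ₀ne) ^ M = ζ := Units.ext (by simpa using hξ₀)
  generalize Units.mk0 ξ₀ hξ₀ne = ξ at hξ
  -- the base field `E' = K(j(q^{Mp}))`
  have hfix : ∀ x ∈ IntermediateField.adjoin K {qExpand K (M * p) (jqModC K)}, twist ξ x = x := by
    intro x hx
    induction hx using IntermediateField.adjoin_induction with
    | mem x hx =>
      rw [Set.mem_singleton_iff] at hx
      rw [hx]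
      refine twist_qExpand_of_pow_eq_one ξ (M * p) ?_ _
      rw [pow_mul, hξ]
      exact hζ.pow_eq_one
    | algebraMap a => exact (twist ξ).commutes a
    | add a b _ _ ha hb => rw [map_add, ha, hb]
    | inv a _ ha => rw [map_inv₀, ha]
    | mul a b _ _ ha hb => rw [map_mul, ha, hb]
  have hmem : qExpand K (M * p) (jqModC K) ∈
      IntermediateField.adjoin K {qExpand K (M * p) (jqModC K)} :=
    IntermediateField.subset_adjoin K _ (Set.mem_singleton _)
  have hzE : qExpand K (M * (p * p)) (jqModC K) ∉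
      IntermediateField.adjoin K {qExpand K (M * p) (jqModC K)} := by
    intro hzmem
    have hmap : IntermediateField.adjoin K {qExpand K (M * p) (jqModC K)}
        = (IntermediateField.adjoin K {jqModC K}).map (qExpandAlgHomC K (M * p)) := by
      rw [IntermediateField.adjoin_map, Set.image_singleton]; rfl
    rw [hmap] at hzmem
    obtain ⟨w, hw, hwz⟩ := hzmem
    have hz' : qExpand K (M * (p * p)) (jqModC K)
        = qExpand K (M * p) (qExpand K p (jqModC K)) := by
      rw [qExpand_qExpand]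
      exact qExpand_congr (by ring) _
    have hweq : w = qExpand K p (jqModC K) := qExpand_injective (R := K) (M * p) (by
      rw [← hz']; exact hwz)
    exact hB (hweq ▸ hw)
  obtain ⟨hint, -, hdegz⟩ := minpoly_facts hζ hξ hΦ _ hfix hmem
  obtain ⟨-, hrootz⟩ := hdegz hzE
  exact not_mem_full_aux hpM hM _ hmem hint hrootz hcon

end BM

end Fermat.Agent.S28.H19
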