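import Mathlib
import Fermat.Agent.S28.Formal
import Fermat.Agent.S28.H19.BM

/-!
# S28 / M4a (helper19): `(B_M)` in the canonical shapes of `Fermat.Agent.S28.Defs`

From modular polynomials (`IsModPoly`) for `p` and the primes dividing `M`, over an algebraically
closed field `K` in which `p * M` is invertible, and `(B)`: `j(q^p) ∉ K(j)`, we get
`(B_M)`: `j(q^p) ∉ K(j(q^d) : d ∣ M)` for `p ∤ M`.
-/

set_option autoImplicit false

noncomputable section

open ModularCurve Polynomial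

namespace Fermat.Agent.S28.H19

theorem twist_eq_qScale {K : Type*} [Field K] (c : Kˣ) (x : LaurentSeries K) :
    twist c x = Fermat.Agent.S28.qScale c x := by
  ext n
  rw [twist_coeff, Fermat.Agent.S28.qScale_coeff, Units.val_zpow_eq_zpow_val]

theorem S28jS_one_left {K : Type*} [Field K] (k : ℕ) [NeZero k] :
    Fermat.Agent.S28.jS K 1 k = qExpand K k (jqModC K) := by
  rw [Fermat.Agent.S28.jS, Fermat.Agent.S28.qSub_apply, Fermat.Agent.S28.vq_eq_qExpand,
    Fermat.Agent.S28.qScale_one]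

theorem S28jS_right_one {K : Type*} [Field K] (c : Kˣ) :
    Fermat.Agent.S28.jS K c 1 = twist c (jqModC K) := by
  rw [Fermat.Agent.S28.jS, Fermat.Agent.S28.qSub_apply, Fermat.Agent.S28.vq_one, twist_eq_qScale]

theorem evY_map_intCast {K A : Type*} [Field K] [CommRing A] [Algebra K A]
    (Φ : Polynomial (Polynomial ℤ)) (x : A) :
    evY (Φ.map (Polynomial.mapRingHom (Int.castRingHom K))) x = Fermat.Agent.S28.evalY x Φ := by
  rw [evY, Polynomial.map_map, Fermat.Agent.S28.evalY, Polynomial.coe_mapRingHom]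
  congr 1
  apply Polynomial.ringHom_ext
  · intro a
    simp
  · simp

/-- A modular polynomial gives `FACT_r` over an algebraically closed field in which `r ≠ 0`. -/
theorem hasModEq_of_isModPoly (K : Type) [Field K] [IsAlgClosed K] {r : ℕ} (hr : r.Prime)
    (hchar : (r : K) ≠ 0) {Φ : Polynomial (Polynomial ℤ)} (hΦ : Fermat.Agent.S28.IsModPoly r Φ) :
    HasModEq K r := by
  have hne : NeZero r := ⟨hr.ne_zero⟩
  have : NeZero (r : K) := ⟨hchar⟩
  obtain ⟨ζ₀, hζ₀⟩ := HasEnoughRootsOfUnity.exists_primitiveRoot K r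
  obtain ⟨ζ, rfl⟩ : ∃ ζ : Kˣ, (ζ : K) = ζ₀ := ⟨(hζ₀.isUnit hr.ne_zero).unit, rfl⟩
  have hζ : IsPrimitiveRoot ζ r := IsPrimitiveRoot.coe_units_iff.mp hζ₀
  refine ⟨hne, ζ, Φ.map (Polynomial.mapRingHom (Int.castRingHom K)), hζ, hΦ.monic.map _, ?_⟩
  have h := hΦ.fact K ζ hζ
  unfold Fermat.Agent.S28.ModPolyFact at h
  rw [evY_map_intCast, ← S28jS_one_left, h, S28jS_one_left]
  congr 1
  refine Finset.prod_congr rfl (fun b _ => ?_)
  rw [S28jS_right_one]

/-- **(B_M)** in the shape consumed by the tower (`H53.dedekindPsi_le_relrank`). -/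
theorem qExpand_not_mem_fullC (K : Type) [Field K] [IsAlgClosed K] (p M : ℕ) (hp : p.Prime)
    [NeZero M] (hpM : ¬ p ∣ M) (hchar : ((p * M : ℕ) : K) ≠ 0)
    (hmod : ∀ r : ℕ, r.Prime → r ∣ p * M → ∃ Φ, Fermat.Agent.S28.IsModPoly r Φ)
    (hB : @qExpand K _ p ⟨hp.ne_zero⟩ (jqModC K) ∉ IntermediateField.adjoin K {jqModC K}) :
    @qExpand K _ p ⟨hp.ne_zero⟩ (jqModC K) ∉ modularFunctionFieldFullC K M := by
  have hne : NeZero p := ⟨hp.ne_zero⟩
  have hcharr : ∀ r : ℕ, r ∣ p * M → (r : K) ≠ 0 := by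
    rintro r ⟨s, hs⟩ h0
    apply hchar
    rw [hs, Nat.cast_mul, h0, zero_mul]
  obtain ⟨Φ, hΦ⟩ := hmod p hp (Dvd.intro M rfl)
  obtain ⟨_, ζ, Φ', hζ, hΦ'⟩ := hasModEq_of_isModPoly K hp (hcharr p (Dvd.intro M rfl)) hΦ
  refine not_mem_full hpM hζ hΦ' (fun p' hp' hp'M => ?_) hB
  have hd : p' ∣ p * M := Dvd.dvd.mul_left hp'M p
  obtain ⟨Ψ, hΨ⟩ := hmod p' hp' hd
  exact hasModEq_of_isModPoly K hp' (hcharr p' hd) hΨ

end Fermat.Agent.S28.H19
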