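import Mathlib
import Fermat.Agent.S28.Formal
import Fermat.Agent.S28.Integrality
import Fermat.Agent.S28.H53.Tower
import Fermat.Agent.S28.H19.BMFinal

/-!
# S28 / M4a (helper19): the degree lower bound, final forms

* `dedekindPsi_le_relrank_algClosed` : over an algebraically closed field `K` with `(N : K) ≠ 0`,
  from modular polynomials and `(B)`: `ψ(N) ≤ [K(j(q^d) : d ∣ N) : K(j(q^N))]`.
* `relrank_le_relfinrank_descent` : the degree can only drop under extension of the constant field
  `k ⊆ K` (the images under `coeffMap` of a `k(j_N)`-basis of `k(j_d : d ∣ N)` span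
  `K(j_d : d ∣ N)` over `K(j_N)`).
* `dedekindPsi_le_relfinrank_of` : the skeleton form over `ZMod ℓ`, with `(B)` over the algebraic
  closure of `ZMod ℓ` as a hypothesis.
-/

set_option autoImplicit false

noncomputable section

open ModularCurve Polynomial

namespace Fermat.Agent.S28.H19

section generic

variable {k L : Type*} [Field k] [Field L] [Algebra k L]

/-- A spanning family of size `relfinrank E F` for a finite extension `F / E`. -/
theorem exists_span_of_relfinrank {E F : IntermediateField k L} (h : E ≤ F)
    [FiniteDimensional E (IntermediateField.extendScalars h)] :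
    ∃ b : Fin (IntermediateField.relfinrank E F) → L,
      ∀ x ∈ F, x ∈ Submodule.span E (Set.range b) := by
  rw [IntermediateField.relfinrank_eq_finrank_of_le h]
  have hfree : Module.Free E (IntermediateField.extendScalars h) := Module.Free.of_divisionRing _ _
  let B := Module.finBasis E (IntermediateField.extendScalars h)
  refine ⟨fun i => ((B i : IntermediateField.extendScalars h) : L), fun x hx => ?_⟩
  have hx' : x ∈ IntermediateField.extendScalars h :=
    (IntermediateField.mem_extendScalars h).mpr hx
  have h1 := B.sum_repr ⟨x, hx'⟩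
  have h2 := congrArg (IntermediateField.extendScalars h).val h1
  rw [map_sum] at h2
  have h3 : (IntermediateField.extendScalars h).val ⟨x, hx'⟩ = x := rfl
  rw [h3] at h2
  rw [← h2]
  refine Submodule.sum_mem _ (fun i _ => ?_)
  rw [map_smul]
  exact Submodule.smul_mem _ _ (Submodule.subset_span ⟨i, rfl⟩)

/-- If `F` is contained in the `E`-span of `n` elements then `[F : E] ≤ n`. -/
theorem relrank_le_of_subset_span {E F : IntermediateField k L} (h : E ≤ F) {n : ℕ}
    (b : Fin n → L) (hspan : ∀ x ∈ F, x ∈ Submodule.span E (Set.range b)) :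
    IntermediateField.relrank E F ≤ n := by
  classical
  rw [IntermediateField.relrank_eq_rank_of_le h]
  let f : IntermediateField.extendScalars h →ₗ[E] Submodule.span E (Set.range b) :=
    (IntermediateField.extendScalars h).val.toLinearMap.codRestrict _
      (fun x => hspan x ((IntermediateField.mem_extendScalars h).mp x.2))
  have hf : Function.Injective f := by
    intro x y hxy
    have := congrArg Subtype.val hxy
    exact Subtype.ext this
  have hrange : Set.range b = ((Finset.univ.image b : Finset L) : Set L) := by
    rw [Finset.coe_image, Finset.coe_univ, Set.image_univ]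
  calc Module.rank E (IntermediateField.extendScalars h)
      ≤ Module.rank E (Submodule.span E (Set.range b)) := LinearMap.rank_le_of_injective f hf
    _ ≤ ((Finset.univ.image b : Finset L).card : Cardinal) := by
        rw [hrange]
        exact rank_span_finset_le _
    _ ≤ n := by
        have := Finset.card_image_le (s := (Finset.univ : Finset (Fin n))) (f := b)
        rw [Finset.card_univ, Fintype.card_fin] at this
        exact_mod_cast this

end generic

section integrality

/-- `j(q^d)`, `d ∣ N`, is integral over `R(j(q^N))`. -/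
theorem isIntegral_qExpand_adjoin (hmod : Fermat.Agent.S28.HasModPolys) (R : Type*) [Field R]
    (N : ℕ) [NeZero N] {d : ℕ} [NeZero d] (hd : d ∣ N) :
    IsIntegral (IntermediateField.adjoin R {qExpand R N (jqModC R)})
      (qExpand R d (jqModC R)) := by
  obtain ⟨P, hP, h⟩ := Fermat.Agent.S28.exists_monic_evalY_jS_of_dvd R hmod hd (NeZero.ne N)
  rw [S28jS_one_left, S28jS_one_left] at h
  let y' : IntermediateField.adjoin R {qExpand R N (jqModC R)} :=
    ⟨qExpand R N (jqModC R), IntermediateField.subset_adjoin R _ (Set.mem_singleton _)⟩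
  refine ⟨Fermat.Agent.S28.evalY y' P, H53.evalY_monic y' hP, ?_⟩
  rw [Polynomial.eval₂_eq_eval_map, Fermat.Agent.S28.map_evalY]
  exact h

theorem finite_divisorExpansionsC (R : Type*) [Field R] (N : ℕ) [NeZero N] :
    (divisorExpansionsC R N).Finite := by
  classical
  refine Set.Finite.subset (Set.Finite.image
    (fun d : ℕ => if h : d = 0 then (0 : LaurentSeries R) else @qExpand R _ d ⟨h⟩ (jqModC R))
    (Finset.finite_toSet N.divisors)) ?_
  rintro x ⟨d, hne, hd, rfl⟩
  refine ⟨d, ?_, ?_⟩
  · exact Finset.mem_coe.mpr (Nat.mem_divisors.mpr ⟨hd, NeZero.ne N⟩)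
  · simp only [dif_neg (NeZero.ne d)]

end integrality

section descent

variable (k K : Type*) [Field k] [Field K] [Algebra k K]

/-- Under extension of the constant field the degree `[k(j_d : d ∣ N) : k(j_N)]` can only drop. -/
theorem relrank_le_relfinrank_descent (hmod : Fermat.Agent.S28.HasModPolys) (N : ℕ) [NeZero N] :
    IntermediateField.relrank (IntermediateField.adjoin K {qExpand K N (jqModC K)})
        (modularFunctionFieldFullC K N) ≤
      ((IntermediateField.relfinrank (IntermediateField.adjoin k {qExpand k N (jqModC k)})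
        (modularFunctionFieldFullC k N) : ℕ) : Cardinal) := by
  classical
  have hEkF : IntermediateField.adjoin k {qExpand k N (jqModC k)} ≤ modularFunctionFieldFullC k N := by
    rw [IntermediateField.adjoin_le_iff, Set.singleton_subset_iff]
    exact jqModCd_mem_full k N dvd_rfl
  have hEKF : IntermediateField.adjoin K {qExpand K N (jqModC K)} ≤ modularFunctionFieldFullC K N := by
    rw [IntermediateField.adjoin_le_iff, Set.singleton_subset_iff]
    exact jqModCd_mem_full K N dvd_rfl
  -- finiteness over `k`
  have hfin : FiniteDimensional (IntermediateField.adjoin k {qExpand k N (jqModC k)})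
      (IntermediateField.extendScalars hEkF) := by
    have h1 : IntermediateField.extendScalars hEkF =
        IntermediateField.adjoin (IntermediateField.adjoin k {qExpand k N (jqModC k)})
          (divisorExpansionsC k N) := IntermediateField.extendScalars_adjoin hEkF
    rw [h1]
    have : Finite (divisorExpansionsC k N) := (finite_divisorExpansionsC k N).to_subtype
    refine IntermediateField.finiteDimensional_adjoin (fun x hx => ?_)
    obtain ⟨d, hne, hd, rfl⟩ := hx
    exact isIntegral_qExpand_adjoin hmod k N hd
  obtain ⟨b, hb⟩ := exists_span_of_relfinrank hEkF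
  refine relrank_le_of_subset_span hEKF (fun i => coeffMap (algebraMap k K) (b i)) ?_
  -- `coeffMap` maps `k(j_N)` into `K(j_N)`
  have hφE : ∀ e ∈ IntermediateField.adjoin k {qExpand k N (jqModC k)},
      coeffMap (algebraMap k K) e ∈ IntermediateField.adjoin K {qExpand K N (jqModC K)} := by
    intro e he
    induction he using IntermediateField.adjoin_induction with
    | mem x hx =>
      rw [Set.mem_singleton_iff] at hx
      rw [hx, coeffMap_qExpand, coeffMap_jqModC]
      exact IntermediateField.subset_adjoin K _ (Set.mem_singleton _)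
    | algebraMap c =>
      rw [algebraMap_laurentSeries_eq_single, coeffMap_single, ← algebraMap_laurentSeries_eq_single]
      exact IntermediateField.algebraMap_mem _ _
    | add a b _ _ ha hb => rw [map_add]; exact add_mem ha hb
    | inv a _ ha => rw [map_inv₀]; exact inv_mem ha
    | mul a b _ _ ha hb => rw [map_mul]; exact mul_mem ha hb
  -- images of elements of `k(j_d : d ∣ N)` lie in the span
  have hφF : ∀ m ∈ modularFunctionFieldFullC k N, coeffMap (algebraMap k K) m ∈
      Submodule.span (IntermediateField.adjoin K {qExpand K N (jqModC K)})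
        (Set.range fun i => coeffMap (algebraMap k K) (b i)) := by
    intro m hm
    obtain ⟨c, hc⟩ := (Submodule.mem_span_range_iff_exists_fun _).mp (hb m hm)
    rw [← hc, map_sum]
    refine Submodule.sum_mem _ (fun i _ => ?_)
    have h1 : coeffMap (algebraMap k K) (c i • b i) =
        (⟨coeffMap (algebraMap k K) (c i : LaurentSeries k), hφE _ (c i).2⟩ :
          IntermediateField.adjoin K {qExpand K N (jqModC K)}) •
          coeffMap (algebraMap k K) (b i) := by
      show coeffMap (algebraMap k K) ((c i : LaurentSeries k) * b i) = _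
      rw [map_mul]
      rfl
    rw [h1]
    exact Submodule.smul_mem _ _ (Submodule.subset_span ⟨i, rfl⟩)
  -- monomials in the generators
  have hmono : ∀ m ∈ Submonoid.closure (divisorExpansionsC K N), m ∈
      Submodule.span (IntermediateField.adjoin K {qExpand K N (jqModC K)})
        (Set.range fun i => coeffMap (algebraMap k K) (b i)) := by
    intro m hm
    suffices h : ∃ m' ∈ modularFunctionFieldFullC k N, coeffMap (algebraMap k K) m' = m by
      obtain ⟨m', hm', rfl⟩ := h
      exact hφF m' hm'
    induction hm using Submonoid.closure_induction with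
    | mem x hx =>
      obtain ⟨d, hne, hd, rfl⟩ := hx
      exact ⟨qExpand k d (jqModC k), jqModCd_mem_full k N hd, by
        rw [coeffMap_qExpand, coeffMap_jqModC]⟩
    | one => exact ⟨1, one_mem _, map_one _⟩
    | mul x y _ _ hx hy =>
      obtain ⟨x', hx', rfl⟩ := hx
      obtain ⟨y', hy', rfl⟩ := hy
      exact ⟨x' * y', mul_mem hx' hy', map_mul _ _ _⟩
  intro x hx
  have hx1 : x ∈ IntermediateField.adjoin (IntermediateField.adjoin K {qExpand K N (jqModC K)})
      (divisorExpansionsC K N) := by
    rw [← IntermediateField.extendScalars_adjoin hEKF]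
    exact (IntermediateField.mem_extendScalars hEKF).mpr hx
  have halg : ∀ s ∈ divisorExpansionsC K N,
      IsAlgebraic (IntermediateField.adjoin K {qExpand K N (jqModC K)}) s := by
    rintro s ⟨d, hne, hd, rfl⟩
    exact (isIntegral_qExpand_adjoin hmod K N hd).isAlgebraic
  have hx2 : x ∈ Algebra.adjoin (IntermediateField.adjoin K {qExpand K N (jqModC K)})
      (divisorExpansionsC K N) := by
    rw [← IntermediateField.adjoin_toSubalgebra_of_isAlgebraic halg]
    exact hx1
  have hx3 : x ∈ Submodule.span (IntermediateField.adjoin K {qExpand K N (jqModC K)})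
      (Submonoid.closure (divisorExpansionsC K N) : Set (LaurentSeries K)) := by
    rw [← Algebra.adjoin_eq_span]
    exact hx2
  exact Submodule.span_le.mpr hmono hx3

end descent

section final

/-- **M4a over an algebraically closed field** (cardinal form), from modular polynomials and
`(B)`. -/
theorem dedekindPsi_le_relrank_algClosed (hmod : Fermat.Agent.S28.HasModPolys) (K : Type)
    [Field K] [IsAlgClosed K] (N : ℕ) [NeZero N] (hN : (N : K) ≠ 0)
    (hB : ∀ p : ℕ, p.Prime → p ∣ N →
      Fermat.Agent.S28.jS K 1 p ∉ IntermediateField.adjoin K {Fermat.Agent.S28.jS K 1 1}) :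
    (dedekindPsi N : Cardinal) ≤ IntermediateField.relrank
      (IntermediateField.adjoin K {qExpand K N (jqModC K)}) (modularFunctionFieldFullC K N) := by
  have hdiv : ∀ r : ℕ, r ∣ N → (r : K) ≠ 0 := by
    rintro r ⟨s, hs⟩ h0
    apply hN
    rw [hs, Nat.cast_mul, h0, zero_mul]
  refine H53.dedekindPsi_le_relrank K N ?_ (fun p hp _ => hmod p hp) ?_
  · intro p hp hpN
    have : NeZero (p : K) := ⟨hdiv p hpN⟩
    obtain ⟨ζ₀, hζ₀⟩ := HasEnoughRootsOfUnity.exists_primitiveRoot K p
    exact ⟨(hζ₀.isUnit hp.ne_zero).unit, IsPrimitiveRoot.coe_units_iff.mp hζ₀⟩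
  · intro p M hp hpM hMN
    have hM0 : M ≠ 0 := by
      rintro rfl
      rw [zero_mul, zero_dvd_iff] at hMN
      exact NeZero.ne N hMN
    have : NeZero M := ⟨hM0⟩
    refine qExpand_not_mem_fullC K p M hp hpM (hdiv _ (by rwa [mul_comm])) (fun r hr _ => hmod r hr) ?_
    have h := hB p hp (Dvd.dvd.trans (Dvd.intro_left M rfl) hMN)
    have : NeZero p := ⟨hp.ne_zero⟩
    rwa [S28jS_one_left (k := p), Fermat.Agent.S28.jS_one_one] at h

/-- **M4a, final form over `𝔽_ℓ`** (skeleton shape), with `(B)` over the algebraic closure of
`𝔽_ℓ` as a hypothesis. -/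
theorem dedekindPsi_le_relfinrank_of (hmod : Fermat.Agent.S28.HasModPolys) (N : ℕ) [NeZero N]
    (ℓ : ℕ) [Fact ℓ.Prime] (hℓN : ¬ ℓ ∣ N)
    (hB : ∀ p : ℕ, p.Prime → p ≠ ℓ →
      Fermat.Agent.S28.jS (AlgebraicClosure (ZMod ℓ)) 1 p ∉
        IntermediateField.adjoin (AlgebraicClosure (ZMod ℓ))
          {Fermat.Agent.S28.jS (AlgebraicClosure (ZMod ℓ)) 1 1}) :
    dedekindPsi N ≤ IntermediateField.relfinrank
      (IntermediateField.adjoin (ZMod ℓ) {jqNModC (ZMod ℓ) N})
      (modularFunctionFieldFullC (ZMod ℓ) N) := by
  have hNK : (N : AlgebraicClosure (ZMod ℓ)) ≠ 0 := by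
    rw [Ne, CharP.cast_eq_zero_iff (AlgebraicClosure (ZMod ℓ)) ℓ]
    exact hℓN
  have h1 := dedekindPsi_le_relrank_algClosed hmod (AlgebraicClosure (ZMod ℓ)) N hNK
    (fun p hp hpN => hB p hp (by rintro rfl; exact hℓN hpN))
  have h2 := relrank_le_relfinrank_descent (ZMod ℓ) (AlgebraicClosure (ZMod ℓ)) hmod N
  have h3 := h1.trans h2
  rw [jqNModC]
  exact_mod_cast h3

end final

end Fermat.Agent.S28.H19
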